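import Mathlib.Analysis.Normed.Lp.PiLp
import Mathlib.LinearAlgebra.Basis.VectorSpace
import Mathlib.LinearAlgebra.Matrix.NonsingularInverse

/-!
# The simplex lemma

The rational points with a small denominator in a small cube lie on one hyperplane: the volume
of a simplex with rational vertices `p i / q i` is a multiple of `1 / ∏ q i`.
-/

set_option autoImplicit false

noncomputable section

open Finset Matrix
open scoped Nat

namespace FA.SchmidtGames

variable {d : ℕ}

/-- The constant of the simplex lemma. -/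
def simplexConst (d : ℕ) : ℝ := (d + 1)! * 2 ^ d

theorem one_le_simplexConst (d : ℕ) : 1 ≤ simplexConst d := by
  have h1 : (1 : ℝ) ≤ ((d + 1)! : ℕ) := Nat.one_le_cast.2 (d + 1).factorial_pos
  exact one_le_mul_of_one_le_of_one_le h1 (one_le_pow₀ one_le_two)

/-- The rational points that are small against the radius `r` and lie near `u`. -/
def nearPoints (r : ℝ) (u : Fin d → ℝ) : Set (Fin d → ℝ) :=
  {z | ∃ (q : ℕ) (p : Fin d → ℤ), 0 < q ∧ simplexConst d * r ^ d * (q : ℝ) ^ (d + 1) < 1 ∧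
    (∀ i, z i = p i / q) ∧ ‖z - u‖ ≤ 2 * r}

/-- `d + 1` small rational points of a small cube span no simplex. -/
theorem det_lift_eq_zero {r : ℝ} {u : Fin d → ℝ}
    (z : Fin (d + 1) → Fin d → ℝ) (hz : ∀ k, z k ∈ nearPoints r u) :
    (of fun k => (Fin.cons 1 (z k) : Fin (d + 1) → ℝ)).det = 0 := by
  choose q p hq hsmall hzp hnear using hz
  set A : Matrix (Fin (d + 1)) (Fin (d + 1)) ℝ :=
    of fun k => (Fin.cons 1 (z k) : Fin (d + 1) → ℝ) with hA
  set B : Matrix (Fin (d + 1)) (Fin (d + 1)) ℝ :=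
    of fun k => (Fin.cons 1 (z k - u) : Fin (d + 1) → ℝ) with hB
  set C : Matrix (Fin (d + 1)) (Fin (d + 1)) ℤ :=
    of fun k => (Fin.cons (q k : ℤ) (p k) : Fin (d + 1) → ℤ) with hC
  have hAB : A.det = B.det := by
    rw [← det_transpose A, ← det_transpose B]
    refine det_eq_of_forall_row_eq_smul_add_const
      (Fin.cons 0 u : Fin (d + 1) → ℝ) 0 rfl fun j k => ?_
    refine Fin.cases ?_ (fun i => ?_) j <;> simp [hA, hB]
  have hint : ((C.det : ℤ) : ℝ) = (∏ k, (q k : ℝ)) * A.det := by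
    rw [← det_mul_column (fun k => (q k : ℝ)) A,
      show ((C.det : ℤ) : ℝ) = Int.castRingHom ℝ C.det from rfl, RingHom.map_det]
    congr 1
    ext k j
    refine Fin.cases ?_ (fun i => ?_) j
    · simp [hA, hC]
    · simp only [hA, hC, RingHom.mapMatrix_apply, map_apply, of_apply, Fin.cons_succ, hzp k i,
        eq_intCast]
      rw [mul_div_cancel₀ _ (Nat.cast_ne_zero.2 (hq k).ne')]
  have hB' : |B.det| ≤ (d + 1)! * (2 * r) ^ d := by
    rw [det_apply]
    refine (abs_sum_le_sum_abs _ _).trans ?_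
    refine (sum_le_card_nsmul _ _ ((2 * r) ^ d) fun σ _ => ?_).trans ?_
    · have hsign : |Equiv.Perm.sign σ • ∏ i, B (σ i) i| = |∏ i, B (σ i) i| := by
        rcases Int.units_eq_one_or (Equiv.Perm.sign σ) with h | h <;> simp [h]
      rw [hsign, abs_prod, Fin.prod_univ_succ]
      simp only [hB, of_apply, Fin.cons_zero, Fin.cons_succ, abs_one, one_mul]
      refine (prod_le_prod (fun i _ => abs_nonneg _) fun i _ => ?_).trans_eq
        (Fin.prod_const d (2 * r))
      rw [← Real.norm_eq_abs]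
      exact (norm_le_pi_norm _ i).trans (hnear _)
    · rw [card_univ, Fintype.card_perm, Fintype.card_fin, nsmul_eq_mul]
  obtain ⟨k₀, -, hk₀⟩ := exists_max_image univ q univ_nonempty
  have hprod : (∏ k, (q k : ℝ)) ≤ (q k₀ : ℝ) ^ (d + 1) := by
    refine (prod_le_prod (fun k _ => Nat.cast_nonneg _) fun k _ =>
      (Nat.cast_le.2 (hk₀ k (mem_univ _)) : (q k : ℝ) ≤ q k₀)).trans_eq (Fin.prod_const _ _)
  by_contra hne
  have hC0 : C.det ≠ 0 := by
    intro h0
    rw [h0, Int.cast_zero] at hint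
    exact (mul_ne_zero (prod_ne_zero_iff.2 fun k _ => Nat.cast_ne_zero.2 (hq k).ne') hne) hint.symm
  have h1 : (1 : ℝ) ≤ |((C.det : ℤ) : ℝ)| := by exact_mod_cast Int.one_le_abs hC0
  rw [hint, abs_mul, abs_of_nonneg (prod_nonneg fun k _ => Nat.cast_nonneg (q k)), hAB] at h1
  have h2 := h1.trans (mul_le_mul hprod hB' (abs_nonneg _) (by positivity))
  have h3 := hsmall k₀
  rw [simplexConst] at h3
  rw [mul_pow] at h2
  linarith

/-- **The simplex lemma.** The small rational points near `u` lie on one hyperplane. -/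
theorem exists_hyperplane (hd : 0 < d) (r : ℝ) (u : Fin d → ℝ) :
    ∃ (a : Fin d → ℝ) (h : ℝ), ∑ i, |a i| = 1 ∧ ∀ z ∈ nearPoints r u, ∑ i, a i * z i = h := by
  rcases Set.eq_empty_or_nonempty (nearPoints r u) with he | ⟨z₀, hz₀⟩
  · exact ⟨Pi.single ⟨0, hd⟩ 1, 0, by simp [Pi.single_apply, apply_ite], fun z hz => by
      simp [he] at hz⟩
  set L : Set (Fin (d + 1) → ℝ) :=
    (fun z => (Fin.cons 1 z : Fin (d + 1) → ℝ)) '' nearPoints r u with hL
  have hlt : Submodule.span ℝ L < ⊤ := by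
    refine lt_top_iff_ne_top.2 fun htop => ?_
    obtain ⟨f, hf, -, hli⟩ := Submodule.exists_fun_fin_finrank_span_eq ℝ L
    have hfin : Module.finrank ℝ (Submodule.span ℝ L) = d + 1 := by
      rw [htop, finrank_top, Module.finrank_fin_fun]
    set g : Fin (d + 1) → Fin (d + 1) → ℝ := f ∘ Fin.cast hfin.symm with hg
    have hgli : LinearIndependent ℝ g := hli.comp _ (Fin.cast_injective _)
    choose z hz hzg using fun k => (hf (Fin.cast hfin.symm k) : g k ∈ L)
    have hdet := det_lift_eq_zero z hz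
    rw [show (fun k => (Fin.cons 1 (z k) : Fin (d + 1) → ℝ)) = g from funext hzg] at hdet
    have := (Matrix.isUnit_iff_isUnit_det (of g)).1
      (linearIndependent_rows_iff_isUnit.1 hgli)
    rw [hdet] at this
    exact not_isUnit_zero this
  obtain ⟨ℓ, hℓ0, hℓ⟩ := Submodule.exists_le_ker_of_lt_top _ hlt
  set c : Fin (d + 1) → ℝ := fun j => ℓ (Pi.single j 1) with hc
  have hℓc : ∀ v : Fin (d + 1) → ℝ, ℓ v = ∑ j, c j * v j := fun v => by
    rw [← (ℓ.pi_apply_eq_sum_univ v).symm]
    refine sum_congr rfl fun j _ => ?_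
    rw [smul_eq_mul, mul_comm, hc]
    congr 2
    ext i
    simp [Pi.single_apply, eq_comm]
  have hker : ∀ z ∈ nearPoints r u, c 0 + ∑ i, c i.succ * z i = 0 := fun z hz => by
    have h := LinearMap.mem_ker.1 (hℓ (Submodule.subset_span ⟨z, hz, rfl⟩))
    rw [hℓc, Fin.sum_univ_succ] at h
    simpa using h
  set N := ∑ i : Fin d, |c i.succ| with hN
  have hN0 : 0 < N := by
    refine (sum_nonneg fun i _ => abs_nonneg _).lt_of_ne' fun h0 => hℓ0 ?_
    have hs : ∀ i : Fin d, c i.succ = 0 := fun i =>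
      abs_eq_zero.1 ((sum_eq_zero_iff_of_nonneg fun i _ => abs_nonneg _).1 h0 i (mem_univ i))
    have h1 : c 0 = 0 := by simpa [hs] using hker z₀ hz₀
    refine LinearMap.ext fun v => ?_
    rw [hℓc, Fin.sum_univ_succ]
    simp [h1, hs]
  refine ⟨fun i => c i.succ / N, -c 0 / N, ?_, fun z hz => ?_⟩
  · simp only [abs_div, abs_of_pos hN0]
    rw [← sum_div, ← hN, div_self hN0.ne']
  · have e : ∑ i, c i.succ / N * z i = (∑ i, c i.succ * z i) / N := by
      rw [sum_div]
      exact sum_congr rfl fun i _ => by ring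
    rw [e]
    congr 1
    linarith [hker z hz]

end FA.SchmidtGames
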