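import Fermat.Agent.SchmidtGames.BadlyApproximable
import Fermat.Agent.SchmidtGames.Simplex

/-!
# The badly approximable vectors are winning

Every `t` turns Alice looks at the hyperplane through the small rational points near Bob's cube
and then moves away from it during `t` turns.
-/

set_option autoImplicit false

noncomputable section

open Finset

namespace FA.SchmidtGames

variable {d : ℕ}

/-- The badly approximable vectors: `max |q x i - p i| ≥ c / q ^ (1 / d)` for all `q` and `p`. -/
def badVectors (d : ℕ) : Set (Fin d → ℝ) :=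
  {x | ∃ c : ℝ, 0 < c ∧ ∀ q : ℕ, 0 < q → ∀ p : Fin d → ℤ,
    ∃ i, c / (q : ℝ) ^ (1 / (d : ℝ)) ≤ |(q : ℝ) * x i - p i|}

/-- `v` leads away from a hyperplane with the small rational points near `u`. -/
def IsEscape (r : ℝ) (u v : Fin d → ℝ) : Prop :=
  ∃ (a : Fin d → ℝ) (h : ℝ), ∑ i, |a i| = 1 ∧ ∑ i, a i * v i = 1 ∧ h ≤ ∑ i, a i * u i ∧
    ∀ z ∈ nearPoints r u, ∑ i, a i * z i = h

theorem exists_isEscape (hd : 0 < d) (r : ℝ) (u : Fin d → ℝ) :
    ∃ v, ‖v‖ ≤ 1 ∧ IsEscape r u v := by
  suffices h : ∀ (a : Fin d → ℝ) (h : ℝ), ∑ i, |a i| = 1 → h ≤ ∑ i, a i * u i →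
      (∀ z ∈ nearPoints r u, ∑ i, a i * z i = h) → ∃ v, ‖v‖ ≤ 1 ∧ IsEscape r u v by
    obtain ⟨a, t, ha, hz⟩ := exists_hyperplane hd r u
    rcases le_total t (∑ i, a i * u i) with hle | hle
    · exact h a t ha hle hz
    · exact h (-a) (-t) (by simpa using ha) (by simpa using hle)
        fun z hz' => by simp [hz z hz']
  intro a t ha hle hz
  refine ⟨fun i => if 0 ≤ a i then 1 else -1, (pi_norm_le_iff_of_nonneg zero_le_one).2 fun i => ?_,
    a, t, ha, ?_, hle, hz⟩
  · split_ifs <;> simp
  · refine (sum_congr rfl fun i _ => ?_).trans ha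
    dsimp only
    split_ifs with h
    · rw [mul_one, abs_of_nonneg h]
    · rw [mul_neg_one, abs_of_neg (not_le.1 h)]

open Classical in
/-- The direction of escape. -/
def escapeVector (r : ℝ) (u : Fin d → ℝ) : Fin d → ℝ :=
  if h : ∃ v, ‖v‖ ≤ 1 ∧ IsEscape r u v then h.choose else 0

theorem norm_escapeVector_le (r : ℝ) (u : Fin d → ℝ) : ‖escapeVector r u‖ ≤ 1 := by
  unfold escapeVector
  split_ifs with h
  · exact h.choose_spec.1
  · simp

theorem isEscape_escapeVector (hd : 0 < d) (r : ℝ) (u : Fin d → ℝ) :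
    IsEscape r u (escapeVector r u) := by
  rw [escapeVector, dif_pos (exists_isEscape hd r u)]
  exact (exists_isEscape hd r u).choose_spec.2

theorem abs_sum_mul_le (a w : Fin d → ℝ) (ha : ∑ i, |a i| = 1) : |∑ i, a i * w i| ≤ ‖w‖ := by
  refine (abs_sum_le_sum_abs _ _).trans ((sum_le_sum fun i _ => ?_).trans_eq
    (show ∑ i, |a i| * ‖w‖ = ‖w‖ by rw [← sum_mul, ha, one_mul]))
  rw [abs_mul]
  exact mul_le_mul_of_nonneg_left (norm_le_pi_norm w i) (abs_nonneg _)

/-- **Schmidt's theorem.** The badly approximable vectors are `α`-winning for every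
`α ≤ 1 / 2`. -/
theorem isWinning_badVectors (hd : 0 < d) {α : ℝ} (hα : 0 < α) (hα2 : α ≤ 1 / 2) :
    IsWinning α (badVectors d) := by
  intro β hβ hβ1 ρ hρ
  have hx0 : 0 < α * β := mul_pos hα hβ
  have hx1 : α * β < 1 := mul_lt_one_of_nonneg_of_lt_one_left hα.le (by linarith) hβ1.le
  set γ : ℝ := 1 - 2 * α + α * β with hγdef
  have hγ : 0 < γ := by rw [hγdef]; linarith
  have hγ1 : γ ≤ 1 := by
    have := mul_le_mul_of_nonneg_left hβ1.le hα.le
    rw [hγdef]
    linarith
  obtain ⟨t₀, ht₀⟩ := exists_pow_lt_of_lt_one (half_pos hγ) hx1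
  set t : ℕ := t₀ + 1 with htdef
  have ht : (α * β) ^ t ≤ γ / 2 :=
    (pow_le_pow_of_le_one hx0.le hx1.le (Nat.le_succ t₀)).trans ht₀.le
  set σ : ℕ → (ℕ → Fin d → ℝ) → Fin d → ℝ := fun n b => b n + ((1 - α) * radius α β ρ n) •
    escapeVector (radius α β ρ (t * (n / t))) (b (t * (n / t))) with hσ
  have hstrat : IsStrategy α β ρ σ := by
    refine ⟨fun n b => ?_, fun n b b' he => ?_⟩
    · have hnn : 0 ≤ (1 - α) * radius α β ρ n :=
        mul_nonneg (by linarith) (radius_pos hα hβ hρ n).le
      simp only [σ, add_sub_cancel_left, norm_smul, Real.norm_of_nonneg hnn]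
      exact mul_le_of_le_one_right hnn (norm_escapeVector_le _ _)
    · simp only [σ, he n le_rfl, he (t * (n / t)) (Nat.mul_div_le n t)]
  refine ⟨σ, hstrat, fun b hb x hx => ?_⟩
  -- During one block of `t` turns the centre moves monotonically away.
  have hblock : ∀ k, ∀ z ∈ nearPoints (radius α β ρ (t * k)) (b (t * k)),
      γ / 2 * radius α β ρ (t * k) ≤ ‖x - z‖ := by
    intro k z hz
    set m := t * k with hm
    set v := escapeVector (radius α β ρ m) (b m) with hv
    obtain ⟨a, h, ha, hav, hle, hplane⟩ := isEscape_escapeVector hd (radius α β ρ m) (b m)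
    rw [← hv] at hav
    set φ : (Fin d → ℝ) → ℝ := fun w => ∑ i, a i * w i with hφ
    have hφsub : ∀ w w', φ (w - w') = φ w - φ w' := fun w w' => by
      simp [hφ, mul_sub]
    have hφle : ∀ w, |φ w| ≤ ‖w‖ := fun w => abs_sum_mul_le a w ha
    have hstep : ∀ i < t, γ * radius α β ρ (m + i) ≤ φ (b (m + i + 1)) - φ (b (m + i)) := by
      intro i hi
      have hdiv : t * ((m + i) / t) = m := by
        rw [hm, add_comm, Nat.add_mul_div_left _ _ (by omega), Nat.div_eq_of_lt hi, zero_add]
      have hmove : φ (σ (m + i) b) = φ (b (m + i)) + (1 - α) * radius α β ρ (m + i) := by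
        simp only [σ, hdiv, ← hv, hφ, Pi.add_apply, Pi.smul_apply, smul_eq_mul, mul_add,
          sum_add_distrib, mul_left_comm (a _)]
        rw [← mul_sum, hav, mul_one]
      have h1 := (abs_le.1 ((hφle _).trans (hb (m + i)))).1
      rw [hφsub, hmove] at h1
      have e : γ * radius α β ρ (m + i) =
          (1 - α) * radius α β ρ (m + i) - (1 - β) * α * radius α β ρ (m + i) := by
        rw [hγdef]
        ring
      linarith
    have hsum : ∀ i ≤ t, 1 ≤ i → γ * radius α β ρ m ≤ φ (b (m + i)) - φ (b m) := by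
      intro i hi h1
      induction i with
      | zero => omega
      | succ i ih =>
        have hs := hstep i (by omega)
        rcases Nat.eq_zero_or_pos i with rfl | hi0
        · simpa using hs
        · have := ih (by omega) hi0
          have hnn := mul_nonneg hγ.le (radius_pos hα hβ hρ (m + i)).le
          rw [← add_assoc]
          linarith
    have h1 := hsum t le_rfl (by omega)
    have h2 := (abs_le.1 ((hφle _).trans (hx (m + t)))).1
    rw [hφsub] at h2
    have h3 : radius α β ρ (m + t) ≤ γ / 2 * radius α β ρ m := by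
      rw [radius, radius, pow_add]
      calc ρ * ((α * β) ^ m * (α * β) ^ t) ≤ ρ * ((α * β) ^ m * (γ / 2)) := by gcongr
        _ = _ := by ring
    have h4 := (abs_le.1 (hφle (x - z))).2
    rw [hφsub, show φ z = h from hplane z hz] at h4
    have h5 : h ≤ φ (b m) := hle
    linarith
  have hK := one_le_simplexConst d
  refine ⟨γ / 2 * min ρ ((α * β) ^ t / simplexConst d),
    mul_pos (half_pos hγ) (lt_min hρ (by positivity)), fun q hq p => ?_⟩
  have hqR : (0 : ℝ) < q := Nat.cast_pos.2 hq
  have hq1 : (1 : ℝ) ≤ q := by exact_mod_cast hq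
  -- the first block whose cube is small against `q`
  have hex : ∃ k, simplexConst d * radius α β ρ (t * k) ^ d * (q : ℝ) ^ (d + 1) < 1 := by
    have hlim : Filter.Tendsto (fun k : ℕ => simplexConst d * radius α β ρ (t * k) ^ d *
        (q : ℝ) ^ (d + 1)) Filter.atTop (nhds 0) := by
      have h : Filter.Tendsto (fun k : ℕ => radius α β ρ (t * k)) Filter.atTop (nhds 0) := by
        have hp : (α * β) ^ t < 1 := pow_lt_one₀ hx0.le hx1 (by omega)
        simpa [radius, pow_mul] using
          (tendsto_pow_atTop_nhds_zero_of_lt_one (by positivity) hp).const_mul ρ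
      simpa [zero_pow hd.ne'] using ((h.pow d).const_mul (simplexConst d)).mul_const _
    exact (hlim.eventually_lt_const zero_lt_one).exists
  set k := Nat.find hex with hk
  have hsmall : simplexConst d * radius α β ρ (t * k) ^ d * (q : ℝ) ^ (d + 1) < 1 :=
    Nat.find_spec hex
  set r := radius α β ρ (t * k) with hr
  have hrpos : 0 < r := radius_pos hα hβ hρ _
  set z : Fin d → ℝ := fun i => (p i : ℝ) / q with hzdef
  have hfar : γ / 2 * r ≤ ‖x - z‖ := by
    rcases le_or_gt ‖z - b (t * k)‖ (2 * r) with hnear | hfar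
    · exact hblock k z ⟨q, p, hq, hsmall, fun i => rfl, hnear⟩
    · have h1 : ‖x - b (t * k)‖ ≤ r := hx (t * k)
      have h2 := norm_sub_le_norm_sub_add_norm_sub z x (b (t * k))
      rw [norm_sub_rev z x] at h2
      have := mul_le_mul_of_nonneg_right hγ1 hrpos.le
      linarith
  have hrq : min ρ ((α * β) ^ t / simplexConst d) ≤
      r * ((q : ℝ) * (q : ℝ) ^ (1 / (d : ℝ))) := by
    rcases Nat.eq_zero_or_pos k with h0 | h0
    · have e : r = ρ := by rw [hr, h0, mul_zero, radius, pow_zero, mul_one]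
      rw [e]
      exact (min_le_left _ _).trans (le_mul_of_one_le_right hρ.le
        (one_le_mul_of_one_le_of_one_le hq1 (Real.one_le_rpow hq1 (by positivity))))
    · obtain ⟨j, hj⟩ := Nat.exists_eq_succ_of_ne_zero h0.ne'
      have hprev : 1 ≤ simplexConst d * radius α β ρ (t * j) ^ d * (q : ℝ) ^ (d + 1) :=
        not_lt.1 (Nat.find_min hex (by omega : j < k))
      have hre : r = radius α β ρ (t * j) * (α * β) ^ t := by
        rw [hr, hj, radius, radius, Nat.mul_succ, pow_add]
        ring
      refine (min_le_right _ _).trans ((pow_le_pow_iff_left₀ (by positivity)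
        (by positivity) hd.ne').1 ?_)
      have e : (r * ((q : ℝ) * (q : ℝ) ^ (1 / (d : ℝ)))) ^ d =
          ((α * β) ^ t) ^ d * (radius α β ρ (t * j) ^ d * (q : ℝ) ^ (d + 1)) := by
        rw [mul_pow, mul_pow, one_div, Real.rpow_inv_natCast_pow hqR.le hd.ne', hre, mul_pow,
          pow_succ]
        ring
      rw [e, div_pow]
      calc ((α * β) ^ t) ^ d / simplexConst d ^ d
          ≤ ((α * β) ^ t) ^ d / simplexConst d := div_le_div_of_nonneg_left (by positivity)
            (by linarith) (le_self_pow₀ hK hd.ne')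
        _ ≤ _ := by
          rw [div_le_iff₀ (by linarith)]
          have := mul_le_mul_of_nonneg_left hprev (by positivity : 0 ≤ ((α * β) ^ t) ^ d)
          linarith
  by_contra hall
  simp only [not_exists, not_le] at hall
  have hlt : ‖x - z‖ < γ / 2 * r := by
    refine (pi_norm_lt_iff (by positivity)).2 fun i => ?_
    have h := hall i
    rw [Real.norm_eq_abs, Pi.sub_apply, hzdef,
      show x i - (p i : ℝ) / q = ((q : ℝ) * x i - p i) / q by field_simp,
      abs_div, abs_of_pos hqR, div_lt_iff₀ hqR]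
    refine h.trans_le ?_
    rw [div_le_iff₀ (Real.rpow_pos_of_pos hqR _)]
    have := mul_le_mul_of_nonneg_left hrq (half_pos hγ).le
    linarith
  exact absurd hfar (not_le.2 hlt)

/-- Countably many translates of the badly approximable vectors meet in a winning set. -/
theorem isWinning_iInter_translate_badVectors (hd : 0 < d) {α : ℝ} (hα : 0 < α)
    (hα2 : α ≤ 1 / 2) {ι : Type*} [Countable ι] (v : ι → Fin d → ℝ) :
    IsWinning α (⋂ i, {x | x + v i ∈ badVectors d}) :=
  IsWinning.iInter hα (by linarith) fun i => (isWinning_badVectors hd hα hα2).translate (v i)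

/-- In dimension one these are the badly approximable reals. -/
theorem mem_badVectors_one (x : ℝ) :
    (fun _ => x : Fin 1 → ℝ) ∈ badVectors 1 ↔ x ∈ badSet := by
  have key : ∀ (c : ℝ) (p : ℤ) (q : ℕ), 0 < q →
      (c / (q : ℝ) ^ (1 / ((1 : ℕ) : ℝ)) ≤ |(q : ℝ) * x - p| ↔
        c / (q : ℝ) ^ 2 ≤ |x - p / q|) := by
    intro c p q hq
    have hqR : (0 : ℝ) < q := Nat.cast_pos.2 hq
    rw [Nat.cast_one, div_one, Real.rpow_one, show x - (p : ℝ) / q = ((q : ℝ) * x - p) / q by
      field_simp, abs_div, abs_of_pos hqR, le_div_iff₀ hqR]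
    exact Iff.of_eq (congrArg (· ≤ _) (by field_simp))
  constructor
  · rintro ⟨c, hc, h⟩
    refine ⟨c, hc, fun p q hq => ?_⟩
    obtain ⟨i, hi⟩ := h q hq fun _ => p
    exact (key c p q hq).1 hi
  · rintro ⟨c, hc, h⟩
    exact ⟨c, hc, fun q hq p => ⟨0, (key c (p 0) q hq).2 (h (p 0) q hq)⟩⟩

end FA.SchmidtGames
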