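import Mathlib.Analysis.SpecificLimits.Normed
import Mathlib.NumberTheory.Padics.PadicVal.Basic

/-!
# Schmidt's game

The game is played with balls in a normed group; on the line they are intervals.
Bob starts with an interval of centre `b 0` and radius `ρ`; in the turn `n` Alice chooses in
Bob's interval one of radius `α ρ (α β) ^ n`, and in it Bob chooses one of radius
`ρ (α β) ^ (n + 1)`.
-/

set_option autoImplicit false

noncomputable section

open Filter Topology

namespace FA.SchmidtGames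

variable {X : Type*} [NormedAddCommGroup X]

/-- The radius of Bob's interval in the turn `n`. -/
def radius (α β ρ : ℝ) (n : ℕ) : ℝ := ρ * (α * β) ^ n

/-- Bob's centres `b` are legal replies to Alice's centres given by `σ`. -/
def IsPlay (α β ρ : ℝ) (σ : ℕ → (ℕ → X) → X) (b : ℕ → X) : Prop :=
  ∀ n, ‖b (n + 1) - σ n b‖ ≤ (1 - β) * α * radius α β ρ n

/-- A legal strategy of Alice: in the turn `n` she looks only at Bob's first `n + 1` moves. -/
def IsStrategy (α β ρ : ℝ) (σ : ℕ → (ℕ → X) → X) : Prop :=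
  (∀ n b, ‖σ n b - b n‖ ≤ (1 - α) * radius α β ρ n) ∧
    ∀ n b b', (∀ i ≤ n, b i = b' i) → σ n b = σ n b'

/-- `S` is `α`-winning: for every `β` and every first interval Alice has a strategy that
brings the common point of all intervals into `S`. -/
def IsWinning (α : ℝ) (S : Set X) : Prop :=
  ∀ β, 0 < β → β < 1 → ∀ ρ, 0 < ρ → ∃ σ, IsStrategy α β ρ σ ∧
    ∀ b, IsPlay α β ρ σ b → ∀ x, (∀ n, ‖x - b n‖ ≤ radius α β ρ n) → x ∈ S

theorem IsWinning.mono {α : ℝ} {S T : Set X} (h : IsWinning α S) (hST : S ⊆ T) :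
    IsWinning α T := fun β hβ hβ1 ρ hρ => by
  obtain ⟨σ, hσ, hwin⟩ := h β hβ hβ1 ρ hρ
  exact ⟨σ, hσ, fun b hb x hx => hST (hwin b hb x hx)⟩

theorem isWinning_univ {α : ℝ} (hα0 : 0 ≤ α) (hα : α ≤ 1) :
    IsWinning α (Set.univ : Set X) :=
  fun β hβ _ ρ hρ =>
  ⟨fun n b => b n, ⟨fun n b => by
    rw [sub_self, norm_zero]
    exact mul_nonneg (sub_nonneg.2 hα) (mul_nonneg hρ.le (pow_nonneg (mul_nonneg hα0 hβ.le) _)),
    fun n b b' h => h n le_rfl⟩, fun _ _ _ _ => trivial⟩

/-- Translates of winning sets are winning. -/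
theorem IsWinning.translate {α : ℝ} {S : Set X} (h : IsWinning α S) (v : X) :
    IsWinning α {x | x + v ∈ S} := fun β hβ hβ1 ρ hρ => by
  obtain ⟨σ, ⟨hσ1, hσ2⟩, hwin⟩ := h β hβ hβ1 ρ hρ
  refine ⟨fun n b => σ n (fun i => b i + v) - v, ⟨fun n b => ?_, fun n b b' he => ?_⟩,
    fun b hb x hx => ?_⟩
  · have := hσ1 n (fun i => b i + v)
    rwa [← sub_sub, sub_right_comm] at this
  · change σ n (fun i => b i + v) - v = σ n (fun i => b' i + v) - v
    rw [hσ2 n (fun i => b i + v) (fun i => b' i + v) fun i hi => congrArg (· + v) (he i hi)]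
  · refine hwin (fun i => b i + v) (fun n => ?_) (x + v) fun n => ?_
    · have := hb n
      rwa [sub_sub_eq_add_sub] at this
    · rw [add_sub_add_right_eq_sub]
      exact hx n

theorem radius_pos {α β ρ : ℝ} (hα : 0 < α) (hβ : 0 < β) (hρ : 0 < ρ) (n : ℕ) :
    0 < radius α β ρ n := mul_pos hρ (pow_pos (mul_pos hα hβ) n)

theorem radius_succ (α β ρ : ℝ) (n : ℕ) :
    radius α β ρ (n + 1) = β * (α * radius α β ρ n) := by
  rw [radius, radius, pow_succ]
  ring

/-- Bob's intervals are nested. -/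
theorem abs_sub_le_of_play {α β ρ : ℝ} {σ : ℕ → (ℕ → X) → X} (hσ : IsStrategy α β ρ σ)
    {b : ℕ → X} (hb : IsPlay α β ρ σ b) (m : ℕ) :
    ∀ j, ‖b (m + j) - b m‖ ≤ radius α β ρ m - radius α β ρ (m + j) := by
  intro j
  induction j with
  | zero => simp
  | succ j ih =>
    have h1 := hb (m + j)
    have h2 := hσ.1 (m + j) b
    have h3 := norm_sub_le_norm_sub_add_norm_sub (b (m + j + 1)) (σ (m + j) b) (b (m + j))
    have h4 := norm_sub_le_norm_sub_add_norm_sub (b (m + j + 1)) (b (m + j)) (b m)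
    rw [← add_assoc, radius_succ]
    linarith

/-- The intervals have a common point. -/
theorem exists_outcome [CompleteSpace X] {α β ρ : ℝ} (hα : 0 < α) (hβ : 0 < β)
    (hαβ : α * β < 1) (hρ : 0 < ρ)
    {σ : ℕ → (ℕ → X) → X} (hσ : IsStrategy α β ρ σ) {b : ℕ → X} (hb : IsPlay α β ρ σ b) :
    ∃ x, ∀ n, ‖x - b n‖ ≤ radius α β ρ n := by
  have hle : ∀ m k, m ≤ k → ‖b k - b m‖ ≤ radius α β ρ m := fun m k hk => by
    obtain ⟨j, rfl⟩ := Nat.exists_eq_add_of_le hk
    linarith [abs_sub_le_of_play hσ hb m j, radius_pos hα hβ hρ (m + j)]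
  have hlim : Tendsto (fun n => radius α β ρ n) atTop (𝓝 0) := by
    simpa [radius] using
      (tendsto_pow_atTop_nhds_zero_of_lt_one (mul_pos hα hβ).le hαβ).const_mul ρ
  obtain ⟨x, hx⟩ := cauchySeq_tendsto_of_complete (u := b)
    (cauchySeq_of_le_tendsto_0' (radius α β ρ) (fun m k hk => by
      rw [dist_eq_norm, norm_sub_rev]
      exact hle m k hk) hlim)
  exact ⟨x, fun n => le_of_tendsto ((hx.sub_const (b n)).norm)
    (eventually_atTop.2 ⟨n, fun k hk => hle n k hk⟩)⟩

/-- The turns that belong to the set number `i`. -/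
def turnOf (i j : ℕ) : ℕ := 2 ^ i * (2 * j + 1) - 1

theorem turnOf_succ (i j : ℕ) : turnOf i (j + 1) = turnOf i j + 2 ^ (i + 1) := by
  have : 1 ≤ 2 ^ i * (2 * j + 1) :=
    Nat.one_le_iff_ne_zero.2 (mul_ne_zero (pow_ne_zero _ two_ne_zero) (by omega))
  rw [turnOf, turnOf, show 2 ^ i * (2 * (j + 1) + 1) = 2 ^ i * (2 * j + 1) + 2 ^ (i + 1) by ring]
  exact Nat.sub_add_comm this

theorem padicValNat_turnOf (i j : ℕ) :
    padicValNat 2 (turnOf i j + 1) = i ∧ ((turnOf i j + 1) / 2 ^ i) / 2 = j := by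
  have h : turnOf i j + 1 = 2 ^ i * (2 * j + 1) := Nat.sub_add_cancel
    (Nat.one_le_iff_ne_zero.2 (mul_ne_zero (pow_ne_zero _ two_ne_zero) (by omega)))
  constructor
  · rw [h, padicValNat.mul (pow_ne_zero _ two_ne_zero) (by omega), padicValNat.prime_pow,
      padicValNat.eq_zero_of_not_dvd (by omega), add_zero]
  · rw [h, Nat.mul_div_cancel_left _ (pow_pos two_pos i)]
    omega

/-- The set number of the turn `n`. -/
def setOfTurn (n : ℕ) : ℕ := padicValNat 2 (n + 1)

/-- The place of the turn `n` among the turns of its set. -/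
def placeOfTurn (n : ℕ) : ℕ := ((n + 1) / 2 ^ setOfTurn n) / 2

theorem turnOf_place (n : ℕ) : turnOf (setOfTurn n) (placeOfTurn n) = n := by
  obtain ⟨i, m, hm, he⟩ := Nat.exists_eq_two_pow_mul_odd n.succ_ne_zero
  obtain ⟨j, rfl⟩ := hm
  have ht : turnOf i j = n := by
    rw [turnOf, ← he]
    rfl
  obtain ⟨h1, h2⟩ := padicValNat_turnOf i j
  rw [ht] at h1 h2
  rw [placeOfTurn, setOfTurn, h1, h2, ht]

theorem turnOf_mono (i : ℕ) : Monotone (turnOf i) :=
  monotone_nat_of_le_succ fun j => (turnOf_succ i j).symm ▸ Nat.le_add_right _ _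

/-- **Countable intersections of winning sets are winning.** -/
theorem IsWinning.iInter_nat {α : ℝ} (hα : 0 < α) (hα1 : α < 1) {S : ℕ → Set X}
    (h : ∀ i, IsWinning α (S i)) : IsWinning α (⋂ i, S i) := by
  intro β hβ hβ1 ρ hρ
  have hx : α * β < 1 := mul_lt_one_of_nonneg_of_lt_one_left hα.le hα1 hβ1.le
  set β' : ℕ → ℝ := fun i => β * (α * β) ^ (2 ^ (i + 1) - 1) with hβ'
  have hβ'0 : ∀ i, 0 < β' i := fun i => mul_pos hβ (pow_pos (mul_pos hα hβ) _)
  have hβ'1 : ∀ i, β' i < 1 := fun i =>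
    lt_of_le_of_lt (mul_le_of_le_one_right hβ.le (pow_le_one₀ (mul_pos hα hβ).le hx.le)) hβ1
  choose σ hσ hwin using fun i =>
    h i (β' i) (hβ'0 i) (hβ'1 i) (radius α β ρ (turnOf i 0)) (radius_pos hα hβ hρ _)
  have hrad : ∀ i j, radius α (β' i) (radius α β ρ (turnOf i 0)) j =
      radius α β ρ (turnOf i j) := by
    intro i j
    have e : turnOf i j = turnOf i 0 + 2 ^ (i + 1) * j := by
      induction j with
      | zero => simp
      | succ j ih => rw [turnOf_succ, ih]; ring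
    have e2 : α * β' i = (α * β) ^ 2 ^ (i + 1) := by
      conv_rhs => rw [← Nat.sub_add_cancel (Nat.one_le_two_pow (n := i + 1)), pow_succ]
      rw [hβ']
      ring
    rw [radius, radius, radius, e, e2, pow_add, pow_mul]
    ring
  set τ : ℕ → (ℕ → X) → X := fun n b =>
    σ (setOfTurn n) (placeOfTurn n) fun l => b (turnOf (setOfTurn n) l) with hτdef
  have hτ : IsStrategy α β ρ τ := by
    refine ⟨fun n b => ?_, fun n b b' he => ?_⟩
    · have := (hσ (setOfTurn n)).1 (placeOfTurn n) fun l => b (turnOf (setOfTurn n) l)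
      rwa [hrad, turnOf_place] at this
    · exact (hσ _).2 _ _ _ fun l hl =>
        he _ ((turnOf_mono _ hl).trans_eq (turnOf_place n))
  refine ⟨τ, hτ, fun b hb x hx => Set.mem_iInter.2 fun i => ?_⟩
  refine hwin i (fun l => b (turnOf i l)) (fun j => ?_) x fun j => by rw [hrad]; exact hx _
  have hT : τ (turnOf i j) b = σ i j fun l => b (turnOf i l) := by
    simp only [hτdef, placeOfTurn, setOfTurn, (padicValNat_turnOf i j).1,
      (padicValNat_turnOf i j).2]
  rw [hrad, ← hT]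
  set n := turnOf i j with hn
  obtain ⟨d, hd⟩ : ∃ d, turnOf i (j + 1) = n + 1 + d :=
    ⟨2 ^ (i + 1) - 1, by rw [turnOf_succ, ← hn]; have := Nat.one_le_two_pow (n := i + 1); omega⟩
  have h1 := abs_sub_le_of_play hτ hb (n + 1) d
  have h2 := hb n
  have h3 := norm_sub_le_norm_sub_add_norm_sub (b (n + 1 + d)) (b (n + 1)) (τ n b)
  have h4 : radius α β ρ (n + 1 + d) = β' i * (α * radius α β ρ n) := by
    rw [← hd, ← hrad i (j + 1), radius_succ, hrad]
  rw [radius_succ, h4] at h1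
  show ‖b (turnOf i (j + 1)) - τ n b‖ ≤ _
  rw [hd]
  linarith

theorem IsWinning.iInter {α : ℝ} (hα : 0 < α) (hα1 : α < 1) {ι : Type*} [Countable ι]
    {S : ι → Set X} (h : ∀ i, IsWinning α (S i)) : IsWinning α (⋂ i, S i) := by
  rcases isEmpty_or_nonempty ι with hι | hι
  · exact (isWinning_univ hα.le hα1.le).mono (Set.subset_iInter fun i => isEmptyElim i)
  · obtain ⟨f, hf⟩ := exists_surjective_nat ι
    exact (IsWinning.iInter_nat hα hα1 fun k => h (f k)).mono
      (hf.iInter_comp (g := S)).subset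

end FA.SchmidtGames
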