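import Fermat.Agent.SelfSimilar.Moran
import Fermat.Agent.SchmidtGames.Game

/-!
# Winning sets have full Hausdorff dimension

With `β = 1 / (2 m)` Bob always has `m` disjoint replies on the line, and `m ^ d` in `ℝ ^ d`.
-/

set_option autoImplicit false

noncomputable section

open Finset Filter Topology MeasureTheory Measure
open scoped ENNReal NNReal

namespace FA.SchmidtGames

open FA.DigitFrequency

variable {X : Type*} [NormedAddCommGroup X] [NormedSpace ℝ X] {m M : ℕ}

/-- Bob's moves for a path of choices among the offsets `w`. -/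
def branchMoves (α β : ℝ) (w : Fin M → X) (σ : ℕ → (ℕ → X) → X) (ω : ℕ → Fin M) :
    ℕ → ℕ → X
  | 0 => fun _ => 0
  | n + 1 => Function.update (branchMoves α β w σ ω n) (n + 1)
      (σ n (branchMoves α β w σ ω n) + (α * radius α β 1 n) • w (ω n))

/-- Bob's play for a path of choices. -/
def branchPlay (α β : ℝ) (w : Fin M → X) (σ : ℕ → (ℕ → X) → X) (ω : ℕ → Fin M) (n : ℕ) : X :=
  branchMoves α β w σ ω n n

theorem branchMoves_eq (α β : ℝ) (w : Fin M → X) (σ : ℕ → (ℕ → X) → X) (ω : ℕ → Fin M) (i : ℕ) :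
    ∀ d, branchMoves α β w σ ω (i + d) i = branchPlay α β w σ ω i
  | 0 => rfl
  | d + 1 => by
    rw [← add_assoc, branchMoves, Function.update_of_ne (by omega),
      branchMoves_eq α β w σ ω i d]

theorem branchPlay_succ {α β : ℝ} {w : Fin M → X} {σ : ℕ → (ℕ → X) → X}
    (hσ : ∀ n b b', (∀ i ≤ n, b i = b' i) → σ n b = σ n b') (ω : ℕ → Fin M) (n : ℕ) :
    branchPlay α β w σ ω (n + 1) =
      σ n (branchPlay α β w σ ω) + (α * radius α β 1 n) • w (ω n) := by
  rw [branchPlay, branchMoves, Function.update_self,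
    hσ n (branchMoves α β w σ ω n) (branchPlay α β w σ ω) fun i hi => by
      obtain ⟨d, rfl⟩ := Nat.exists_eq_add_of_le hi
      exact branchMoves_eq α β w σ ω i d]

theorem branchPlay_congr {α β : ℝ} {w : Fin M → X} {σ : ℕ → (ℕ → X) → X}
    (hσ : ∀ n b b', (∀ i ≤ n, b i = b' i) → σ n b = σ n b') {ω η : ℕ → Fin M} :
    ∀ k, (∀ i < k, ω i = η i) → ∀ i ≤ k, branchPlay α β w σ ω i = branchPlay α β w σ η i
  | 0, _, i, hi => by
    obtain rfl := Nat.le_zero.1 hi
    rfl
  | k + 1, h, i, hi => by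
    have ih := branchPlay_congr (α := α) (β := β) (w := w) hσ k fun j hj =>
      h j (hj.trans k.lt_succ_self)
    rcases Nat.le_succ_iff.1 hi with hi | rfl
    · exact ih i hi
    · rw [branchPlay_succ hσ, branchPlay_succ hσ, hσ k _ _ ih, h k k.lt_succ_self]

theorem abs_offset_le (hm : 1 ≤ m) {k : ℕ} (hk : k < m) :
    |(4 * (k : ℝ) + 1) / (2 * m) - 1| ≤ 1 - 1 / (2 * (m : ℝ)) := by
  have hm0 : (0 : ℝ) < m := by exact_mod_cast hm
  have hk1 : (k : ℝ) + 1 ≤ m := by exact_mod_cast hk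
  have hk0 : (0 : ℝ) ≤ k := Nat.cast_nonneg k
  have e1 : (1 : ℝ) / (2 * m) * (2 * m) = 1 := by field_simp
  have e2 : (4 * (k : ℝ) + 1) / (2 * m) * (2 * m) = 4 * k + 1 := by field_simp
  rw [abs_le]
  constructor <;> nlinarith

theorem sequenceLaw_ne_zero_of_prob {p : Fin M → ℝ} (hp0 : ∀ j, 0 ≤ p j) (hp1 : ∑ j, p j = 1) :
    sequenceLaw p Set.univ ≠ 0 := by
  have := isProbabilityMeasure_digitLaw hp0 hp1
  have : IsProbabilityMeasure (sequenceLaw p) := by unfold sequenceLaw; infer_instance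
  rw [measure_univ]
  exact one_ne_zero

/-- If Bob has `M` replies `β`-apart in every turn, then a winning set has dimension at least
`log M / log (1 / (α β))`. -/
theorem le_dimH_of_offsets [CompleteSpace X] [MeasurableSpace X] [BorelSpace X]
    {α β : ℝ} (hα : 0 < α) (hα1 : α < 1) (hβ0 : 0 < β) (hβ1 : β < 1) {S : Set X}
    (h : IsWinning α S) (hM : 2 ≤ M) (w : Fin M → X) (hw : ∀ j, ‖w j‖ ≤ 1 - β)
    (hsep : ∀ i j, i ≠ j → 4 * β ≤ ‖w i - w j‖) :
    ENNReal.ofReal (Real.log M / Real.log (1 / (α * β))) ≤ dimH S := by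
  have hM0 : (2 : ℝ) ≤ M := by exact_mod_cast hM
  have hx0 : 0 < α * β := mul_pos hα hβ0
  have hx1 : α * β < 1 := mul_lt_one_of_nonneg_of_lt_one_left hα.le hα1 hβ1.le
  obtain ⟨σ, hσ, hwin⟩ := h β hβ0 hβ1 1 one_pos
  have hplay : ∀ ω : ℕ → Fin M, IsPlay α β 1 σ (branchPlay α β w σ ω) := by
    intro ω n
    have hr := mul_nonneg hα.le (radius_pos hα hβ0 one_pos n).le
    rw [branchPlay_succ hσ.2, add_sub_cancel_left, norm_smul, Real.norm_of_nonneg hr,
      show (1 - β) * α * radius α β 1 n = α * radius α β 1 n * (1 - β) by ring]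
    exact mul_le_mul_of_nonneg_left (hw _) hr
  choose g hg using fun ω => exists_outcome hα hβ0 hx1 one_pos hσ (hplay ω)
  set p : Fin M → ℝ := fun _ => 1 / (M : ℝ) with hp
  have hp0 : ∀ j, 0 ≤ p j := fun _ => by positivity
  have hp1 : ∑ j, p j = 1 := by
    rw [sum_const, card_univ, Fintype.card_fin, nsmul_eq_mul, mul_one_div_cancel (by positivity)]
  set s : ℝ := Real.log M / Real.log (1 / (α * β)) with hs
  have hlog : 0 < Real.log (1 / (α * β)) := Real.log_pos ((one_lt_div hx0).2 hx1)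
  have hs0 : 0 < s := div_pos (Real.log_pos (by linarith)) hlog
  have hpow : (α * β) ^ s = 1 / (M : ℝ) := by
    rw [show α * β = (1 / (α * β))⁻¹ by rw [one_div, inv_inv], Real.inv_rpow (by positivity),
      Real.rpow_def_of_pos (by positivity), hs, mul_div_cancel₀ _ hlog.ne',
      Real.exp_log (by linarith), one_div]
  refine le_dimH_of_hausdorffMeasure_ne_zero (d := s.toNNReal) ?_
  rw [Real.coe_toNNReal s hs0.le]
  refine SelfSimilar.hausdorffMeasure_ne_zero_of_mass (sequenceLaw p) g hs0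
    (C := (1 / (2 * (α * β))) ^ s) (by positivity) (sequenceLaw_ne_zero_of_prob hp0 hp1)
    (fun ω => hwin _ (hplay ω) _ (hg ω)) fun t δ hδ0 hδ ht => ?_
  have hex : ∃ k, 2 * radius α β 1 k ≤ δ := by
    obtain ⟨k, hk⟩ := exists_pow_lt_of_lt_one (half_pos hδ0) hx1
    exact ⟨k, by rw [radius, one_mul]; linarith⟩
  obtain ⟨n, hn⟩ : ∃ n, Nat.find hex = n + 1 := Nat.exists_eq_succ_of_ne_zero fun h0 => by
    have := Nat.find_spec hex
    rw [h0, radius] at this
    norm_num at this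
    linarith
  have hn1 : 2 * radius α β 1 (n + 1) ≤ δ := hn ▸ Nat.find_spec hex
  have hn2 : δ < 2 * radius α β 1 n := not_le.1 (Nat.find_min hex (by omega))
  rcases Set.eq_empty_or_nonempty (g ⁻¹' t) with h0 | ⟨ω₀, hω₀⟩
  · simp [h0]
  have hagree : ∀ ω ∈ g ⁻¹' t, ∀ i < n, ω i = ω₀ i := by
    intro ω hω i
    induction i using Nat.strong_induction_on with
    | _ i ih =>
      intro hi
      by_contra hne
      have hc := branchPlay_congr (α := α) (β := β) (w := w) hσ.2 i
        (fun j hj => ih j hj (hj.trans hi))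
      have hdiff : branchPlay α β w σ ω (i + 1) - branchPlay α β w σ ω₀ (i + 1) =
          (α * radius α β 1 i) • (w (ω i) - w (ω₀ i)) := by
        rw [branchPlay_succ hσ.2, branchPlay_succ hσ.2, hσ.2 i _ _ hc, smul_sub]
        abel
      have hr := radius_pos hα hβ0 one_pos (i + 1)
      have hfar : 4 * radius α β 1 (i + 1) ≤
          ‖branchPlay α β w σ ω (i + 1) - branchPlay α β w σ ω₀ (i + 1)‖ := by
        have hr' := mul_nonneg hα.le (radius_pos hα hβ0 one_pos i).le
        rw [hdiff, norm_smul, Real.norm_of_nonneg hr', radius_succ]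
        refine le_trans (le_of_eq ?_) (mul_le_mul_of_nonneg_left (hsep _ _ hne) hr')
        ring
      have hmono : radius α β 1 n ≤ radius α β 1 (i + 1) :=
        mul_le_mul_of_nonneg_left (pow_le_pow_of_le_one hx0.le hx1.le hi) zero_le_one
      have h1 := ht _ hω _ hω₀
      rw [dist_eq_norm] at h1
      have h2 := hg ω (i + 1)
      have h3 := hg ω₀ (i + 1)
      rw [norm_sub_rev] at h2
      have h4 := norm_sub_le_norm_sub_add_norm_sub (branchPlay α β w σ ω (i + 1)) (g ω) (g ω₀)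
      have h5 := norm_sub_le_norm_sub_add_norm_sub (branchPlay α β w σ ω (i + 1)) (g ω₀)
        (branchPlay α β w σ ω₀ (i + 1))
      linarith
  refine (measure_mono (fun ω hω => hagree ω hω :
    g ⁻¹' t ⊆ {η | ∀ i < n, η i = ω₀ i})).trans ?_
  refine (sequenceLaw_cylinder hp0 hp1 ω₀ n).trans_le (ENNReal.ofReal_le_ofReal ?_)
  rw [wordWeight]
  rw [prod_congr rfl (fun i _ => (rfl : p (ω₀ i) = 1 / (M : ℝ))), prod_const, card_range, ← hpow,
    ← Real.rpow_natCast, ← Real.rpow_mul hx0.le, mul_comm s, Real.rpow_mul hx0.le,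
    Real.rpow_natCast, ← Real.mul_rpow (by positivity) hδ0.le]
  refine Real.rpow_le_rpow (pow_nonneg hx0.le n) ?_ hs0.le
  rw [one_div_mul_eq_div, le_div_iff₀ (by positivity)]
  calc (α * β) ^ n * (2 * (α * β)) = 2 * radius α β 1 (n + 1) := by
        rw [radius, pow_succ]; ring
    _ ≤ δ := hn1

theorem abs_offset_sub {k l : ℕ} (hm : 1 ≤ m) (hkl : k ≠ l) :
    4 * (1 / (2 * (m : ℝ))) ≤
      |(4 * (k : ℝ) + 1) / (2 * m) - 1 - ((4 * (l : ℝ) + 1) / (2 * m) - 1)| := by
  have hm0 : (0 : ℝ) < m := by exact_mod_cast hm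
  have hz : (1 : ℝ) ≤ |(k : ℝ) - l| := by
    have h : ((k : ℤ) - l) ≠ 0 := sub_ne_zero.2 (by exact_mod_cast hkl)
    exact_mod_cast Int.one_le_abs h
  rw [show (4 * (k : ℝ) + 1) / (2 * m) - 1 - ((4 * (l : ℝ) + 1) / (2 * m) - 1) =
    4 * (1 / (2 * (m : ℝ))) * ((k : ℝ) - l) by ring, abs_mul, abs_of_pos (by positivity)]
  exact le_mul_of_one_le_right (by positivity) hz

/-- The dimension of a winning set is at least `log m / log (2 m / α)`. -/
theorem le_dimH_of_isWinning {α : ℝ} (hα : 0 < α) (hα1 : α < 1) {S : Set ℝ}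
    (h : IsWinning α S) (hm : 2 ≤ m) :
    ENNReal.ofReal (Real.log m / Real.log (2 * m / α)) ≤ dimH S := by
  have hm0 : (2 : ℝ) ≤ m := by exact_mod_cast hm
  refine le_of_eq_of_le ?_ (le_dimH_of_offsets hα hα1 (β := 1 / (2 * (m : ℝ))) (by positivity)
    ((div_lt_one (by positivity)).2 (by linarith)) h hm
    (fun j : Fin m => (4 * ((j : ℕ) : ℝ) + 1) / (2 * m) - 1) (fun j => ?_) fun i j hij => ?_)
  · congr 3
    field_simp
  · rw [Real.norm_eq_abs]
    exact abs_offset_le (by omega) j.isLt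
  · rw [Real.norm_eq_abs]
    exact abs_offset_sub (by omega) fun e => hij (Fin.ext e)

/-- The dimension of a winning set of `ℝ ^ d` is at least `d log m / log (2 m / α)`. -/
theorem le_dimH_of_isWinning_pi {d : ℕ} (hd : 0 < d) {α : ℝ} (hα : 0 < α) (hα1 : α < 1)
    {S : Set (Fin d → ℝ)} (h : IsWinning α S) (hm : 2 ≤ m) :
    ENNReal.ofReal (d * (Real.log m / Real.log (2 * m / α))) ≤ dimH S := by
  have hm0 : (2 : ℝ) ≤ m := by exact_mod_cast hm
  refine le_of_eq_of_le ?_ (le_dimH_of_offsets hα hα1 (β := 1 / (2 * (m : ℝ))) (by positivity)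
    ((div_lt_one (by positivity)).2 (by linarith)) h (M := m ^ d)
    (hm.trans (Nat.le_self_pow hd.ne' m)) (fun j i =>
      (4 * ((finFunctionFinEquiv.symm j i : ℕ) : ℝ) + 1) / (2 * m) - 1) (fun j => ?_)
    fun j k hjk => ?_)
  · rw [Nat.cast_pow, Real.log_pow, ← mul_div_assoc]
    congr 3
    field_simp
  · refine (pi_norm_le_iff_of_nonneg ?_).2 fun i => ?_
    · rw [sub_nonneg, div_le_one (by positivity)]
      linarith
    · rw [Real.norm_eq_abs]
      exact abs_offset_le (by omega) (finFunctionFinEquiv.symm j i).isLt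
  · obtain ⟨i, hi⟩ := Function.ne_iff.1 fun e => hjk (finFunctionFinEquiv.symm.injective e)
    refine le_trans ?_ (norm_le_pi_norm _ i)
    rw [Pi.sub_apply, Real.norm_eq_abs]
    exact abs_offset_sub (by omega) fun e => hi (Fin.ext e)

theorem tendsto_dimensionBound {α : ℝ} (hα : 0 < α) :
    Tendsto (fun k : ℕ => Real.log (k + 2 : ℕ) / Real.log (2 * (k + 2 : ℕ) / α))
      atTop (𝓝 1) := by
  have hl : Tendsto (fun k : ℕ => Real.log ((k + 2 : ℕ) : ℝ)) atTop atTop :=
    Real.tendsto_log_atTop.comp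
      (tendsto_natCast_atTop_atTop.comp (tendsto_add_atTop_nat 2))
  have h1 := (tendsto_const_nhds (x := Real.log (2 / α))).div_atTop hl
  have h2 := ((tendsto_const_nhds (x := (1 : ℝ))).add h1).inv₀ (by norm_num)
  rw [add_zero, inv_one] at h2
  refine h2.congr fun k => ?_
  have hk : (1 : ℝ) < ((k + 2 : ℕ) : ℝ) := by exact_mod_cast (by omega : 1 < k + 2)
  have hlk := Real.log_pos hk
  rw [show 2 * ((k + 2 : ℕ) : ℝ) / α = 2 / α * ((k + 2 : ℕ) : ℝ) by ring,
    Real.log_mul (by positivity) (by positivity)]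
  field_simp
  ring

/-- **Winning sets have Hausdorff dimension one.** -/
theorem dimH_of_isWinning {α : ℝ} (hα : 0 < α) (hα1 : α < 1) {S : Set ℝ}
    (h : IsWinning α S) : dimH S = 1 := by
  refine le_antisymm ((dimH_mono (Set.subset_univ _)).trans_eq Real.dimH_univ) ?_
  have hlim := ENNReal.tendsto_ofReal (tendsto_dimensionBound hα)
  rw [ENNReal.ofReal_one] at hlim
  exact le_of_tendsto hlim (Eventually.of_forall fun k =>
    le_dimH_of_isWinning hα hα1 h (by omega : 2 ≤ k + 2))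

/-- **Winning sets of `ℝ ^ d` have Hausdorff dimension `d`.** -/
theorem dimH_of_isWinning_pi {d : ℕ} (hd : 0 < d) {α : ℝ} (hα : 0 < α) (hα1 : α < 1)
    {S : Set (Fin d → ℝ)} (h : IsWinning α S) : dimH S = d := by
  refine le_antisymm ((dimH_mono (Set.subset_univ _)).trans_eq (Real.dimH_univ_pi_fin d)) ?_
  have hlim := ENNReal.tendsto_ofReal ((tendsto_dimensionBound hα).const_mul (d : ℝ))
  rw [mul_one, ENNReal.ofReal_natCast] at hlim
  exact le_of_tendsto hlim (Eventually.of_forall fun k =>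
    le_dimH_of_isWinning_pi hd hα hα1 h (by omega : 2 ≤ k + 2))

end FA.SchmidtGames
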