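import Fermat.Agent.SchmidtGames.Game

/-!
# Avoiding separated families of hyperplanes

Let `V` be finitely many directions such that every functional `φ k` takes the values `1` and
`-1` on `V`.  If the levels of `φ k` in `Z k` are `1 / B ^ k` apart, the points that keep
`c / B ^ k` away from all of them form a winning set: in a period of `n` blocks of `t` turns
Alice meets a number linear in `n` of dangerous hyperplanes, and moving in the best direction
she leaves in each block at least one in `#V` of them behind.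
-/

set_option autoImplicit false

noncomputable section

open Finset Filter Topology

namespace FA.SchmidtGames

variable {X : Type*} [NormedAddCommGroup X] [NormedSpace ℝ X]

/-- The points that keep away from all the levels `φ k = z`, `z ∈ Z k`, on the scale
`B ^ (-k)`. -/
def avoidPlanes (B : ℝ) (φ : ℕ → X →ₗ[ℝ] ℝ) (Z : ℕ → Set ℝ) : Set X :=
  {x | ∃ c : ℝ, 0 < c ∧ ∀ k, ∀ z ∈ Z k, c / B ^ k ≤ |φ k x - z|}

/-- The set of reals that keep away from all the families `Z k`, on the scale `B ^ (-k)`. -/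
def avoidSet (B : ℝ) (Z : ℕ → Set ℝ) : Set ℝ :=
  {x | ∃ c : ℝ, 0 < c ∧ ∀ k, ∀ z ∈ Z k, c / B ^ k ≤ |x - z|}

open Classical in
/-- A point of `Z` within `2 r` of `u`, if there is one. -/
def pickNear (Z : Set ℝ) (r u : ℝ) : ℝ :=
  if h : ∃ z ∈ Z, |z - u| ≤ 2 * r then h.choose else u

theorem pickNear_eq {Z : Set ℝ} {r u d z : ℝ} (hd : 4 * r < d)
    (hsep : ∀ z ∈ Z, ∀ w ∈ Z, z ≠ w → d ≤ |z - w|) (hz : z ∈ Z) (hzu : |z - u| ≤ 2 * r) :
    pickNear Z r u = z := by
  classical
  have h : ∃ z ∈ Z, |z - u| ≤ 2 * r := ⟨z, hz, hzu⟩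
  rw [pickNear, dif_pos h]
  obtain ⟨h1, h2⟩ := h.choose_spec
  by_contra hne
  have h3 := hsep _ h1 _ hz hne
  have h4 := abs_sub_le h.choose u z
  rw [abs_sub_comm u z] at h4
  linarith

/-- The levels of `D` within `2 r` of `u`. -/
def windowPart (φ : ℕ → X →ₗ[ℝ] ℝ) (D : Finset (ℕ × ℝ)) (r : ℝ) (u : X) : Finset (ℕ × ℝ) :=
  D.filter fun e => |φ e.1 u - e.2| ≤ 2 * r

open Classical in
/-- The levels of `D` that lie behind `u` seen in the direction `v`. -/
def behindPart (φ : ℕ → X →ₗ[ℝ] ℝ) (D : Finset (ℕ × ℝ)) (u v : X) : Finset (ℕ × ℝ) :=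
  D.filter fun e => (e.2 ≤ φ e.1 u ∧ φ e.1 v = 1) ∨ (φ e.1 u < e.2 ∧ φ e.1 v = -1)

/-- A direction of `V` leaving the most levels near `u` behind. -/
def majorityDir (V : Finset X) (φ : ℕ → X →ₗ[ℝ] ℝ) (D : Finset (ℕ × ℝ)) (r : ℝ) (u : X) : X :=
  if h : V.Nonempty then
    (exists_max_image V (fun v => (behindPart φ (windowPart φ D r u) u v).card) h).choose
  else 0

theorem norm_majorityDir_le {V : Finset X} (hV : ∀ v ∈ V, ‖v‖ ≤ 1) (φ : ℕ → X →ₗ[ℝ] ℝ)
    (D : Finset (ℕ × ℝ)) (r : ℝ) (u : X) : ‖majorityDir V φ D r u‖ ≤ 1 := by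
  unfold majorityDir
  split_ifs with h
  · have hm := exists_max_image V (fun v => (behindPart φ (windowPart φ D r u) u v).card) h
    exact hV _ hm.choose_spec.1
  · simp

/-- A window inside the old one and `2 r'` beyond its centre loses one level in `#V`. -/
theorem card_windowPart_le {V : Finset X} {φ : ℕ → X →ₗ[ℝ] ℝ} (hφ : ∀ k x, |φ k x| ≤ ‖x‖)
    (hcov : ∀ k, (∃ v ∈ V, φ k v = 1) ∧ ∃ v ∈ V, φ k v = -1) (D : Finset (ℕ × ℝ))
    {r r' : ℝ} {u u' : X} (hsub : ‖u' - u‖ + 2 * r' ≤ 2 * r)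
    (haway : ∀ k, |φ k (majorityDir V φ D r u)| = 1 →
      2 * r' < φ k (majorityDir V φ D r u) * (φ k u' - φ k u)) :
    V.card * (windowPart φ D r' u').card ≤ (V.card - 1) * (windowPart φ D r u).card := by
  classical
  obtain ⟨v₀, hv₀, -⟩ := (hcov 0).1
  have hne : V.Nonempty := ⟨v₀, hv₀⟩
  set F := windowPart φ D r u with hF
  set v := majorityDir V φ D r u with hv
  have hmax : ∀ w ∈ V, (behindPart φ F u w).card ≤ (behindPart φ F u v).card := by
    intro w hw
    rw [hv, majorityDir, dif_pos hne]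
    have hm := exists_max_image V (fun v => (behindPart φ F u v).card) hne
    exact hm.choose_spec.2 w hw
  have hlarge : F.card ≤ V.card * (behindPart φ F u v).card := by
    refine (card_le_card fun e he => ?_).trans
      (card_biUnion_le_card_mul V (behindPart φ F u) _ hmax)
    rcases le_or_gt e.2 (φ e.1 u) with h | h
    · obtain ⟨w, hw, h1⟩ := (hcov e.1).1
      exact mem_biUnion.2 ⟨w, hw, mem_filter.2 ⟨he, Or.inl ⟨h, h1⟩⟩⟩
    · obtain ⟨w, hw, h1⟩ := (hcov e.1).2
      exact mem_biUnion.2 ⟨w, hw, mem_filter.2 ⟨he, Or.inr ⟨h, h1⟩⟩⟩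
  have hsub' : windowPart φ D r' u' ⊆ F \ behindPart φ F u v := fun e he => by
    obtain ⟨h1, h2⟩ := mem_filter.1 he
    have h3 := hφ e.1 (u' - u)
    rw [map_sub, abs_sub_comm] at h3
    have hmem : e ∈ F := mem_filter.2
      ⟨h1, by linarith [abs_sub_le (φ e.1 u) (φ e.1 u') e.2]⟩
    refine mem_sdiff.2 ⟨hmem, fun hb => ?_⟩
    obtain ⟨-, ⟨hle, h1v⟩ | ⟨hlt, h1v⟩⟩ := mem_filter.1 hb <;>
      have h := haway e.1 (by simp [h1v]) <;> rw [h1v] at h <;>
      linarith [(abs_le.1 h2).1, (abs_le.1 h2).2]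
  have h1 := card_le_card hsub'
  have hss : behindPart φ F u v ⊆ F := filter_subset _ _
  rw [card_sdiff_of_subset hss] at h1
  calc V.card * (windowPart φ D r' u').card
      ≤ V.card * (F.card - (behindPart φ F u v).card) := Nat.mul_le_mul_left _ h1
    _ = V.card * F.card - V.card * (behindPart φ F u v).card := Nat.mul_sub _ _ _
    _ ≤ (V.card - 1) * F.card := by rw [Nat.sub_mul, one_mul]; omega

/-- The exponential beats the linear. -/
theorem exists_lt_pow {P : ℕ} (hP : 1 ≤ P) (a c : ℕ) :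
    ∃ n, 1 ≤ n ∧ (a * n + c) * (P - 1) ^ n < P ^ n := by
  set q : ℝ := ((P - 1 : ℕ) : ℝ) / P with hq
  have hP0 : (0 : ℝ) < P := by exact_mod_cast hP
  have hq0 : 0 ≤ q := by positivity
  have hq1 : q < 1 := (div_lt_one hP0).2 (by exact_mod_cast Nat.sub_lt hP one_pos)
  have h : Tendsto (fun n : ℕ => (a : ℝ) * (n * q ^ n) + c * q ^ n) atTop (𝓝 0) := by
    simpa using ((tendsto_self_mul_const_pow_of_lt_one hq0 hq1).const_mul (a : ℝ)).add
      ((tendsto_pow_atTop_nhds_zero_of_lt_one hq0 hq1).const_mul (c : ℝ))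
  obtain ⟨n, hn, hn1⟩ := ((h.eventually_lt_const one_pos).and (eventually_ge_atTop 1)).exists
  refine ⟨n, hn1, ?_⟩
  rw [← mul_assoc, ← add_mul, hq, div_pow, mul_div_assoc', div_lt_one (pow_pos hP0 n)] at hn
  exact_mod_cast hn

/-- **Sets avoiding separated families of hyperplanes are winning.** -/
theorem isWinning_avoidPlanes {B : ℝ} (hB : 1 < B) {V : Finset X} (hV : ∀ v ∈ V, ‖v‖ ≤ 1)
    {φ : ℕ → X →ₗ[ℝ] ℝ} (hφ : ∀ k x, |φ k x| ≤ ‖x‖)
    (hcov : ∀ k, (∃ v ∈ V, φ k v = 1) ∧ ∃ v ∈ V, φ k v = -1) {Z : ℕ → Set ℝ}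
    (hsep : ∀ k, ∀ z ∈ Z k, ∀ w ∈ Z k, z ≠ w → 1 / B ^ k ≤ |z - w|) {α : ℝ} (hα : 0 < α)
    (hα2 : α ≤ 1 / 2) : IsWinning α (avoidPlanes B φ Z) := by
  classical
  intro β hβ hβ1 ρ hρ
  have hx0 : 0 < α * β := mul_pos hα hβ
  have hx1 : α * β < 1 := mul_lt_one_of_nonneg_of_lt_one_left hα.le (by linarith) hβ1.le
  have hBpow : ∀ k, 0 < B ^ k := fun k => pow_pos (zero_lt_one.trans hB) k
  set γ : ℝ := 1 - 2 * α + α * β with hγdef
  have hγ : 0 < γ := by rw [hγdef]; linarith
  obtain ⟨t₀, ht₀⟩ := exists_pow_lt_of_lt_one (half_pos hγ) hx1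
  set t : ℕ := t₀ + 1 with htdef
  have ht : (α * β) ^ t < γ / 2 :=
    (pow_le_pow_of_le_one hx0.le hx1.le (Nat.le_succ t₀)).trans_lt ht₀
  obtain ⟨a, ha⟩ := pow_unbounded_of_one_lt (((α * β) ^ t)⁻¹) hB
  obtain ⟨K₀, hK₀⟩ := pow_unbounded_of_one_lt (1 / (4 * ρ)) hB
  obtain ⟨v₀, hv₀, -⟩ := (hcov 0).1
  obtain ⟨n, hn1, hn⟩ := exists_lt_pow (card_pos.2 ⟨v₀, hv₀⟩ : 1 ≤ V.card) a K₀
  set N : ℕ := n * t with hN
  have hNpos : 0 < N := Nat.mul_pos hn1 t₀.succ_pos
  have hrpos := radius_pos (β := β) hα hβ hρ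
  have hradd : ∀ m d, radius α β ρ (m + d) = radius α β ρ m * (α * β) ^ d := fun m d => by
    rw [radius, radius, pow_add, mul_assoc]
  have hex : ∀ j, ∃ K : ℕ, 1 ≤ 4 * radius α β ρ (N * j) * B ^ K := fun j => by
    obtain ⟨K, hK⟩ := pow_unbounded_of_one_lt (1 / (4 * radius α β ρ (N * j))) hB
    rw [div_lt_iff₀ (mul_pos four_pos (hrpos _))] at hK
    exact ⟨K, by linarith⟩
  choose bound hbound using hex
  set band : ℕ → Finset ℕ := fun j => (range (bound j)).filter fun k =>
    4 * radius α β ρ (N * j) * B ^ k < 1 ∧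
      ∀ i, j = i + 1 → 1 ≤ 4 * radius α β ρ (N * i) * B ^ k with hband
  set danger : (ℕ → X) → ℕ → Finset (ℕ × ℝ) := fun b j =>
    (band j).image fun k => (k, pickNear (Z k) (radius α β ρ (N * j)) (φ k (b (N * j))))
  have hcard : ∀ b j, (danger b j).card ≤ a * n + K₀ := by
    intro b j
    refine card_image_le.trans ?_
    rcases (band j).eq_empty_or_nonempty with he | hne
    · simp [he]
    rcases j with _ | i
    · refine ((card_le_card fun k hk => ?_).trans (card_range K₀).le).trans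
        (Nat.le_add_left _ _)
      obtain ⟨-, hlt, -⟩ := mem_filter.1 hk
      refine mem_range.2 ((pow_lt_pow_iff_right₀ hB).1 (lt_trans ?_ hK₀))
      rw [lt_div_iff₀ (by positivity)]
      rw [mul_zero, radius, pow_zero, mul_one] at hlt
      linarith
    set k₀ := (band (i + 1)).min' hne
    have hk₀ := (mem_filter.1 ((band (i + 1)).min'_mem hne)).2.2 i rfl
    refine ((card_le_card fun k hk => ?_).trans
      (Nat.card_Ico k₀ (k₀ + a * n)).le).trans (by omega)
    obtain ⟨-, hlt, -⟩ := mem_filter.1 hk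
    refine Finset.mem_Ico.2 ⟨min'_le _ k hk, (pow_lt_pow_iff_right₀ hB).1 ?_⟩
    have hAN : ((α * β) ^ N)⁻¹ ≤ B ^ (a * n) := by
      rw [hN, mul_comm n, pow_mul, pow_mul, ← inv_pow]
      exact pow_le_pow_left₀ (inv_nonneg.2 (pow_nonneg hx0.le t)) ha.le n
    rw [inv_le_iff_one_le_mul₀ (pow_pos hx0 N)] at hAN
    rw [show N * (i + 1) = N * i + N by ring, hradd] at hlt
    rw [pow_add]
    have h0 : 0 ≤ 4 * radius α β ρ (N * i) * (α * β) ^ N :=
      mul_nonneg (mul_nonneg four_pos.le (hrpos _).le) (pow_nonneg hx0.le N)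
    nlinarith [mul_le_mul hk₀ hAN zero_le_one (by linarith)]
  set σ : ℕ → (ℕ → X) → X := fun m b => b m + ((1 - α) * radius α β ρ m) •
    majorityDir V φ (danger b (m / N)) (radius α β ρ (t * (m / t))) (b (t * (m / t)))
  have hstrat : IsStrategy α β ρ σ := by
    refine ⟨fun m b => ?_, fun m b b' he => ?_⟩
    · have hnn : 0 ≤ (1 - α) * radius α β ρ m := mul_nonneg (by linarith) (hrpos m).le
      simp only [σ, add_sub_cancel_left, norm_smul, Real.norm_of_nonneg hnn]
      exact mul_le_of_le_one_right hnn (norm_majorityDir_le hV _ _ _ _)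
    · simp only [σ, danger, he m le_rfl, he (t * (m / t)) (Nat.mul_div_le m t),
        he (N * (m / N)) (Nat.mul_div_le m N)]
  refine ⟨σ, hstrat, fun b hb x hx => ?_⟩
  have hblock : ∀ j, ∀ i < n,
      let s := N * j + t * i
      let v := majorityDir V φ (danger b j) (radius α β ρ s) (b s)
      ∀ k, |φ k v| = 1 → γ * radius α β ρ s ≤ φ k v * (φ k (b (s + t)) - φ k (b s)) := by
    intro j i hi s v k he
    have hstep : ∀ l < t, γ * radius α β ρ (s + l) ≤
        φ k v * (φ k (b (s + l + 1)) - φ k (b (s + l))) := by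
      intro l hl
      have hit : t * i + l < N := by
        have := Nat.mul_le_mul_left t (Nat.succ_le_of_lt hi)
        rw [Nat.mul_succ] at this
        rw [hN, mul_comm n]
        omega
      have hdN : (s + l) / N = j := by
        show (N * j + t * i + l) / N = j
        rw [add_assoc, Nat.mul_add_div hNpos, Nat.div_eq_of_lt hit, add_zero]
      have hdt : t * ((s + l) / t) = s := by
        show t * ((N * j + t * i + l) / t) = N * j + t * i
        rw [hN, show n * t * j + t * i = t * (n * j + i) by ring,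
          Nat.mul_add_div t₀.succ_pos, Nat.div_eq_of_lt hl, add_zero]
      have hb' := (hφ k _).trans (hb (s + l))
      simp only [σ, hdN, hdt, map_sub, map_add, map_smul, smul_eq_mul] at hb'
      rcases (abs_eq zero_le_one).1 he with h | h <;> simp only [v] at h <;> rw [h] at hb' <;>
        simp only [v, h, hγdef] <;> linarith [(abs_le.1 hb').1, (abs_le.1 hb').2]
    have hsum : ∀ l ≤ t, 1 ≤ l →
        γ * radius α β ρ s ≤ φ k v * (φ k (b (s + l)) - φ k (b s)) := by
      intro l hl h1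
      induction l with
      | zero => omega
      | succ l ih =>
        have hs := hstep l (by omega)
        rcases Nat.eq_zero_or_pos l with rfl | hl0
        · simpa using hs
        · have := ih (by omega) hl0
          have hnn := mul_nonneg hγ.le (hrpos (s + l)).le
          rw [← add_assoc, mul_sub]
          rw [mul_sub] at hs this
          linarith
    exact hsum t le_rfl (by omega)
  have hempty : ∀ j,
      windowPart φ (danger b j) (radius α β ρ (N * j + N)) (b (N * j + N)) = ∅ := by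
    intro j
    set F := fun i =>
      windowPart φ (danger b j) (radius α β ρ (N * j + t * i)) (b (N * j + t * i))
    have hF : ∀ i ≤ n, V.card ^ i * (F i).card ≤ (V.card - 1) ^ i * (danger b j).card := by
      intro i hi
      induction i with
      | zero => simpa [F, windowPart] using card_filter_le (danger b j) _
      | succ i ih =>
        have h1 := abs_sub_le_of_play hstrat hb (N * j + t * i) t
        have h2 := hblock j i (by omega)
        simp only at h2
        have e : N * j + t * (i + 1) = N * j + t * i + t := by ring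
        have h3 : radius α β ρ (N * j + t * i + t) <
            γ / 2 * radius α β ρ (N * j + t * i) := by
          rw [hradd, mul_comm]
          exact mul_lt_mul_of_pos_right ht (hrpos _)
        have h5 : radius α β ρ (N * j + t * i + t) ≤ radius α β ρ (N * j + t * i) := by
          rw [hradd]
          exact mul_le_of_le_one_right (hrpos _).le (pow_le_one₀ hx0.le hx1.le)
        have h4 : V.card * (F (i + 1)).card ≤ (V.card - 1) * (F i).card := by
          simp only [F, e]
          exact card_windowPart_le hφ hcov _ (by linarith) fun k hk => by linarith [h2 k hk]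
        calc V.card ^ (i + 1) * (F (i + 1)).card
            = V.card ^ i * (V.card * (F (i + 1)).card) := by ring
          _ ≤ V.card ^ i * ((V.card - 1) * (F i).card) := Nat.mul_le_mul_left _ h4
          _ = (V.card - 1) * (V.card ^ i * (F i).card) := by ring
          _ ≤ (V.card - 1) * ((V.card - 1) ^ i * (danger b j).card) :=
            Nat.mul_le_mul_left _ (ih (by omega))
          _ = _ := by ring
    have h := (hF n le_rfl).trans_lt ((Nat.mul_le_mul_left _ (hcard b j)).trans_lt
      ((mul_comm _ _).trans_lt hn))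
    have e : t * n = N := by rw [hN, mul_comm]
    simp only [F, e] at h
    refine Finset.card_eq_zero.1 (Nat.eq_zero_of_not_pos fun hp => ?_)
    exact absurd h (not_lt.2 (Nat.le_mul_of_pos_right _ hp))
  refine ⟨min (ρ * (α * β) ^ N) ((α * β) ^ (N + N) / 4),
    lt_min (by positivity) (by positivity), fun k z hz => ?_⟩
  have hexj : ∃ j, 4 * radius α β ρ (N * j) * B ^ k < 1 := by
    obtain ⟨j, hj⟩ := exists_pow_lt_of_lt_one
      (show (0 : ℝ) < 1 / (4 * ρ * B ^ k) from by have := hBpow k; positivity) hx1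
    refine ⟨j, ?_⟩
    have hle : (α * β) ^ (N * j) ≤ (α * β) ^ j :=
      pow_le_pow_of_le_one hx0.le hx1.le (Nat.le_mul_of_pos_left j hNpos)
    rw [lt_div_iff₀ (by have := hBpow k; positivity)] at hj
    rw [radius]
    linarith [mul_le_mul_of_nonneg_right hle
      (by have := hBpow k; positivity : (0 : ℝ) ≤ 4 * ρ * B ^ k)]
  set j := Nat.find hexj
  have hsmall : 4 * radius α β ρ (N * j) * B ^ k < 1 := Nat.find_spec hexj
  set r := radius α β ρ (N * j) with hr
  have hfar : r * (α * β) ^ N ≤ |φ k x - z| := by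
    have hle : r * (α * β) ^ N ≤ r := mul_le_of_le_one_right (hrpos _).le
      (pow_le_one₀ hx0.le hx1.le)
    rcases le_or_gt |z - φ k (b (N * j))| (2 * r) with hnear | hfar
    · have hk : k ∈ band j := by
        refine mem_filter.2 ⟨mem_range.2 ((pow_lt_pow_iff_right₀ hB).1 ?_), hsmall, fun i hi => ?_⟩
        · by_contra! hle'
          have := mul_le_mul_of_nonneg_left hle' (mul_nonneg four_pos.le (hrpos (N * j)).le)
          linarith [hbound j]
        · exact not_lt.1 (Nat.find_min hexj (by omega : i < j))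
      have hz' : (k, z) ∈ danger b j := mem_image.2 ⟨k, hk, by
        rw [pickNear_eq (by rw [lt_div_iff₀ (hBpow k)]; exact hsmall) (hsep k) hz hnear]⟩
      have hout : 2 * radius α β ρ (N * j + N) < |z - φ k (b (N * j + N))| := by
        by_contra! h
        have : (k, z) ∈
            windowPart φ (danger b j) (radius α β ρ (N * j + N)) (b (N * j + N)) :=
          mem_filter.2 ⟨hz', by rw [abs_sub_comm]; exact h⟩
        rw [hempty j] at this
        simp at this
      rw [hradd] at hout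
      have h1 := (hφ k _).trans (hx (N * j + N))
      rw [map_sub, hradd] at h1
      have h2 := abs_sub_le z (φ k x) (φ k (b (N * j + N)))
      rw [abs_sub_comm z (φ k x)] at h2
      linarith
    · have h1 := (hφ k _).trans (hx (N * j))
      rw [map_sub] at h1
      have h2 := abs_sub_le z (φ k x) (φ k (b (N * j)))
      rw [abs_sub_comm z (φ k x)] at h2
      linarith
  refine le_trans ?_ hfar
  rcases Nat.eq_zero_or_pos j with h0 | h0
  · have : r = ρ := by rw [hr, h0, mul_zero, radius, pow_zero, mul_one]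
    rw [this]
    exact (div_le_self (le_min (by positivity) (by positivity)) (one_le_pow₀ hB.le)).trans
      (min_le_left _ _)
  · obtain ⟨i, hi⟩ := Nat.exists_eq_succ_of_ne_zero h0.ne'
    have hprev : 1 ≤ 4 * radius α β ρ (N * i) * B ^ k :=
      not_lt.1 (Nat.find_min hexj (by omega : i < j))
    refine (div_le_div_of_nonneg_right (min_le_right _ _) (hBpow k).le).trans ?_
    rw [hr, hi, show N * i.succ = N * i + N from rfl, hradd, div_le_iff₀ (hBpow k), pow_add]
    nlinarith [mul_le_mul_of_nonneg_left hprev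
      (by positivity : (0 : ℝ) ≤ (α * β) ^ N * (α * β) ^ N / 4)]

/-- **Sets avoiding separated families are winning.** -/
theorem isWinning_avoidSet {B : ℝ} (hB : 1 < B) {Z : ℕ → Set ℝ}
    (hsep : ∀ k, ∀ z ∈ Z k, ∀ w ∈ Z k, z ≠ w → 1 / B ^ k ≤ |z - w|) {α : ℝ} (hα : 0 < α)
    (hα2 : α ≤ 1 / 2) : IsWinning α (avoidSet B Z) :=
  (isWinning_avoidPlanes hB (V := ({1, -1} : Finset ℝ)) (φ := fun _ => LinearMap.id)
    (fun v hv => by
      rcases mem_insert.1 hv with rfl | hv
      · simp
      · simp [mem_singleton.1 hv])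
    (fun _ x => le_of_eq (Real.norm_eq_abs x).symm)
    (fun _ => ⟨⟨1, by simp, rfl⟩, ⟨-1, by simp, rfl⟩⟩) hsep hα hα2).mono fun _ hx => hx

/-- Orbits under multiplication by `b` avoiding a point modulo one form a winning set. -/
theorem isWinning_orbit {b : ℕ} (hb : 2 ≤ b) (y : ℝ) {α : ℝ} (hα : 0 < α) (hα2 : α ≤ 1 / 2) :
    IsWinning α {x : ℝ | ∃ c : ℝ, 0 < c ∧ ∀ (k : ℕ) (m : ℤ), c ≤ |(b : ℝ) ^ k * x - y - m|} := by
  have hB : (1 : ℝ) < b := by exact_mod_cast (by omega : 1 < b)
  refine (isWinning_avoidSet hB (Z := fun k => Set.range fun m : ℤ => (y + m) / (b : ℝ) ^ k)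
    (fun k z hz w hw hne => ?_) hα hα2).mono fun x hx => ?_
  · obtain ⟨m, rfl⟩ := hz
    obtain ⟨m', rfl⟩ := hw
    have hk : (0 : ℝ) < (b : ℝ) ^ k := pow_pos (by linarith) k
    have hm : m - m' ≠ 0 := sub_ne_zero.2 fun e => hne (by rw [e])
    rw [← sub_div, add_sub_add_left_eq_sub, abs_div, abs_of_pos hk]
    gcongr
    exact_mod_cast Int.one_le_abs hm
  · obtain ⟨c, hc, h⟩ := hx
    refine ⟨c, hc, fun k m => ?_⟩
    have hk : (0 : ℝ) < (b : ℝ) ^ k := pow_pos (by linarith) k
    have h' := h k _ ⟨m, rfl⟩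
    rwa [div_le_iff₀ hk, ← abs_of_pos hk, ← abs_mul, sub_mul, abs_of_pos hk,
      div_mul_cancel₀ _ hk.ne', mul_comm x, ← sub_sub] at h'

end FA.SchmidtGames
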