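import Mathlib.Analysis.Normed.Group.Constructions
import Mathlib.Analysis.SpecialFunctions.Pow.Real

/-!
# Linear forms of norm one on `ℝ ^ d`

A form divided by the sum of the absolute values of its coefficients has norm one for the sup
norm, and takes the values `1` and `-1` at sign vectors.
-/

set_option autoImplicit false

noncomputable section

open Finset

namespace FA.SchmidtGames

variable {d : ℕ}

/-- The sign vector of a choice of signs. -/
def signVec (v : Fin d → Bool) : Fin d → ℝ := fun i => if v i then 1 else -1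

theorem norm_signVec_le (v : Fin d → Bool) : ‖signVec v‖ ≤ 1 := by
  refine (pi_norm_le_iff_of_nonneg zero_le_one).2 fun i => ?_
  rw [signVec]
  split_ifs <;> simp

/-- The form of `a` divided by the sum of the `|a i|`. -/
def unitForm (a : Fin d → ℝ) : (Fin d → ℝ) →ₗ[ℝ] ℝ :=
  ∑ i, (a i / ∑ k, |a k|) • LinearMap.proj i

theorem unitForm_apply (a v : Fin d → ℝ) :
    unitForm a v = (∑ i, a i * v i) / ∑ k, |a k| := by
  simp only [unitForm, LinearMap.coe_sum, Finset.sum_apply, LinearMap.smul_apply,
    LinearMap.proj_apply, smul_eq_mul]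
  rw [div_eq_mul_inv (∑ i, a i * v i), sum_mul]
  exact sum_congr rfl fun i _ => by ring

theorem abs_unitForm_le {a : Fin d → ℝ} (ha : 0 < ∑ k, |a k|) (v : Fin d → ℝ) :
    |unitForm a v| ≤ ‖v‖ := by
  rw [unitForm_apply, abs_div, abs_of_pos ha, div_le_iff₀ ha, mul_sum]
  refine (abs_sum_le_sum_abs _ _).trans (sum_le_sum fun i _ => ?_)
  rw [abs_mul, mul_comm]
  exact mul_le_mul_of_nonneg_right (norm_le_pi_norm v i) (abs_nonneg _)

theorem exists_signVec {a : Fin d → ℝ} (ha : 0 < ∑ k, |a k|) :
    (∃ v, unitForm a (signVec v) = 1) ∧ ∃ v, unitForm a (signVec v) = -1 := by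
  refine ⟨⟨fun i => decide (0 ≤ a i), ?_⟩, ⟨fun i => decide (a i < 0), ?_⟩⟩
  · rw [unitForm_apply, div_eq_iff ha.ne', one_mul]
    refine sum_congr rfl fun i _ => ?_
    rcases le_or_gt 0 (a i) with h | h
    · simp [signVec, h, abs_of_nonneg h]
    · simp [signVec, not_le.2 h, abs_of_neg h]
  · rw [unitForm_apply, div_eq_iff ha.ne', neg_one_mul, ← sum_neg_distrib]
    refine sum_congr rfl fun i _ => ?_
    rcases le_or_gt 0 (a i) with h | h
    · simp [signVec, not_lt.2 h, abs_of_nonneg h]
    · simp [signVec, h, abs_of_neg h]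

end FA.SchmidtGames
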