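import Fermat.Agent.SchmidtGames.Game

/-!
# The badly approximable numbers are winning

Every `t` turns Alice looks at the one dangerous fraction near Bob's interval and then moves
away from it during `t` turns.
-/

set_option autoImplicit false

noncomputable section

namespace FA.SchmidtGames

/-- The badly approximable reals. -/
def badSet : Set ℝ :=
  {x | ∃ c : ℝ, 0 < c ∧ ∀ (p : ℤ) (q : ℕ), 0 < q → c / (q : ℝ) ^ 2 ≤ |x - p / q|}

open Classical in
/-- `1` if a fraction `p / q` with `4 r q ^ 2 < 1` lies in `[u - 2 r, u]`, and `-1` otherwise. -/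
def escapeSign (r u : ℝ) : ℝ :=
  if ∃ (p : ℤ) (q : ℕ), 0 < q ∧ 4 * r * (q : ℝ) ^ 2 < 1 ∧ (p : ℝ) / q ≤ u ∧
    u - 2 * r ≤ (p : ℝ) / q then 1 else -1

theorem escapeSign_eq (r u : ℝ) : escapeSign r u = 1 ∨ escapeSign r u = -1 := by
  unfold escapeSign
  split_ifs
  · exact Or.inl rfl
  · exact Or.inr rfl

/-- A fraction with `4 r q ^ 2 < 1` near `u` lies behind the direction of escape. -/
theorem escapeSign_mul_le {r u : ℝ} (hr : 0 < r) {p : ℤ} {q : ℕ} (hq : 0 < q)
    (hsmall : 4 * r * (q : ℝ) ^ 2 < 1) (hnear : |(p : ℝ) / q - u| ≤ 2 * r) :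
    escapeSign r u * ((p : ℝ) / q) ≤ escapeSign r u * u := by
  classical
  obtain ⟨hn1, hn2⟩ := abs_le.1 hnear
  unfold escapeSign
  split_ifs with h
  · obtain ⟨p', q', hq', hsmall', hle, hge⟩ := h
    rw [one_mul, one_mul]
    by_contra! hgt
    have hne : p * q' - q * p' ≠ 0 := by
      intro h0
      have e : (p : ℝ) / q = (p' : ℝ) / q' := by
        rw [div_eq_div_iff (Nat.cast_ne_zero.2 hq.ne') (Nat.cast_ne_zero.2 hq'.ne')]
        have : ((p * q' - q * p' : ℤ) : ℝ) = 0 := by rw [h0, Int.cast_zero]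
        push_cast at this
        linarith
      linarith
    have hz : (1 : ℝ) ≤ |(p : ℝ) * q' - q * p'| := by exact_mod_cast Int.one_le_abs hne
    have h0 : (0 : ℝ) < q := Nat.cast_pos.2 hq
    have h0' : (0 : ℝ) < q' := Nat.cast_pos.2 hq'
    have e : |(p : ℝ) / q - p' / q'| * ((q : ℝ) * q') = |(p : ℝ) * q' - q * p'| := by
      rw [div_sub_div _ _ h0.ne' h0'.ne', abs_div, abs_of_pos (mul_pos h0 h0'),
        div_mul_cancel₀ _ (mul_pos h0 h0').ne']
    have hd : |(p : ℝ) / q - p' / q'| ≤ 4 * r := abs_le.2 ⟨by linarith, by linarith⟩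
    have := mul_le_mul_of_nonneg_right hd (mul_pos h0 h0').le
    nlinarith [mul_nonneg hr.le (sq_nonneg ((q : ℝ) - q'))]
  · by_contra! hgt
    exact h ⟨p, q, hq, hsmall, by linarith, by linarith⟩

/-- **The badly approximable numbers are `α`-winning for every `α ≤ 1 / 2`.** -/
theorem isWinning_badSet {α : ℝ} (hα : 0 < α) (hα2 : α ≤ 1 / 2) : IsWinning α badSet := by
  intro β hβ hβ1 ρ hρ
  have hx0 : 0 < α * β := mul_pos hα hβ
  have hx1 : α * β < 1 := mul_lt_one_of_nonneg_of_lt_one_left hα.le (by linarith) hβ1.le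
  set γ : ℝ := 1 - 2 * α + α * β with hγdef
  have hγ : 0 < γ := by rw [hγdef]; linarith
  obtain ⟨t₀, ht₀⟩ := exists_pow_lt_of_lt_one (half_pos hγ) hx1
  set t : ℕ := t₀ + 1 with htdef
  have ht : (α * β) ^ t ≤ γ / 2 :=
    (pow_le_pow_of_le_one hx0.le hx1.le (Nat.le_succ t₀)).trans ht₀.le
  set σ : ℕ → (ℕ → ℝ) → ℝ := fun n b => b n +
    escapeSign (radius α β ρ (t * (n / t))) (b (t * (n / t))) * ((1 - α) * radius α β ρ n)
  have hstrat : IsStrategy α β ρ σ := by
    refine ⟨fun n b => ?_, fun n b b' he => ?_⟩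
    · simp only [σ, add_sub_cancel_left]
      rcases escapeSign_eq (radius α β ρ (t * (n / t))) (b (t * (n / t))) with h | h <;>
        simp [h, abs_of_nonneg (by linarith : (0 : ℝ) ≤ 1 - α),
          abs_of_pos (radius_pos hα hβ hρ n)]
    · simp only [σ, he n le_rfl, he (t * (n / t)) (Nat.mul_div_le n t)]
  refine ⟨σ, hstrat, fun b hb x hx => ?_⟩
  -- During one block of `t` turns the centre moves monotonically away.
  have hblock : ∀ k, γ / 2 * radius α β ρ (t * k) ≤
      escapeSign (radius α β ρ (t * k)) (b (t * k)) * (x - b (t * k)) := by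
    intro k
    set m := t * k with hm
    set e := escapeSign (radius α β ρ m) (b m) with he
    have hstep : ∀ i < t, γ * radius α β ρ (m + i) ≤ e * (b (m + i + 1) - b (m + i)) := by
      intro i hi
      have hdiv : t * ((m + i) / t) = m := by
        rw [hm, add_comm, Nat.add_mul_div_left _ _ (by omega), Nat.div_eq_of_lt hi, zero_add]
      have hb' := abs_le.1 (hb (m + i))
      simp only [σ, hdiv] at hb'
      rw [← he] at hb'
      rcases escapeSign_eq (radius α β ρ m) (b m) with h | h <;> rw [← he] at h <;>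
        rw [h] at hb' ⊢ <;> simp only [hγdef] <;> linarith [hb'.1, hb'.2]
    have hsum : ∀ i ≤ t, 1 ≤ i → γ * radius α β ρ m ≤ e * (b (m + i) - b m) := by
      intro i hi h1
      induction i with
      | zero => omega
      | succ i ih =>
        have hs := hstep i (by omega)
        rcases Nat.eq_zero_or_pos i with rfl | hi0
        · simpa using hs
        · have := ih (by omega) hi0
          have hnn := mul_nonneg hγ.le (radius_pos hα hβ hρ (m + i)).le
          rw [← add_assoc, mul_sub]
          rw [mul_sub] at hs this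
          linarith
    have h1 := hsum t le_rfl (by omega)
    have h2 := abs_le.1 (hx (m + t))
    have h3 : radius α β ρ (m + t) ≤ γ / 2 * radius α β ρ m := by
      rw [radius, radius, pow_add]
      calc ρ * ((α * β) ^ m * (α * β) ^ t) ≤ ρ * ((α * β) ^ m * (γ / 2)) := by gcongr
        _ = _ := by ring
    rcases escapeSign_eq (radius α β ρ m) (b m) with h | h <;> rw [← he] at h <;>
      rw [h] at h1 ⊢ <;> linarith [h2.1, h2.2]
  refine ⟨min (γ / 2 * ρ) (γ * (α * β) ^ t / 8),
    lt_min (by positivity) (by positivity), fun p q hq => ?_⟩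
  have hqR : (0 : ℝ) < q := Nat.cast_pos.2 hq
  have hq1 : (1 : ℝ) ≤ q := by exact_mod_cast hq
  -- the first block whose interval is small against `q`
  have hex : ∃ k, 4 * radius α β ρ (t * k) * (q : ℝ) ^ 2 < 1 := by
    obtain ⟨k, hk⟩ := exists_pow_lt_of_lt_one
      (show (0 : ℝ) < 1 / (4 * ρ * (q : ℝ) ^ 2) by positivity) hx1
    refine ⟨k, ?_⟩
    have hle : (α * β) ^ (t * k) ≤ (α * β) ^ k :=
      pow_le_pow_of_le_one hx0.le hx1.le (Nat.le_mul_of_pos_left k (by omega))
    rw [lt_div_iff₀ (by positivity)] at hk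
    rw [radius]
    linarith [mul_le_mul_of_nonneg_right hle (by positivity : (0 : ℝ) ≤ 4 * ρ * (q : ℝ) ^ 2)]
  set k := Nat.find hex with hk
  have hsmall : 4 * radius α β ρ (t * k) * (q : ℝ) ^ 2 < 1 := Nat.find_spec hex
  set r := radius α β ρ (t * k) with hr
  have hrpos : 0 < r := radius_pos hα hβ hρ _
  have hfar : γ / 2 * r ≤ |x - p / q| := by
    rcases le_or_gt |(p : ℝ) / q - b (t * k)| (2 * r) with hnear | hfar
    · have h1 := escapeSign_mul_le hrpos hq hsmall hnear
      have h2 := hblock k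
      rw [← hr, mul_sub] at h2
      rcases escapeSign_eq r (b (t * k)) with h | h <;> rw [h] at h1 h2
      · exact le_trans (by linarith) (le_abs_self (x - p / q))
      · exact le_trans (by linarith) (neg_le_abs (x - p / q))
    · have h1 := hx (t * k)
      rw [Real.norm_eq_abs] at h1
      have h2 := abs_sub_le ((p : ℝ) / q) x (b (t * k))
      rw [abs_sub_comm ((p : ℝ) / q) x, ← hr] at *
      have : γ ≤ 1 := by
        have := mul_le_mul_of_nonneg_left hβ1.le hα.le
        rw [hγdef]
        linarith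
      nlinarith
  refine le_trans ?_ hfar
  rcases Nat.eq_zero_or_pos k with h0 | h0
  · have : r = ρ := by rw [hr, h0, mul_zero, radius, pow_zero, mul_one]
    rw [this]
    exact (div_le_self (le_min (by positivity) (by positivity)) (one_le_pow₀ hq1)).trans
      (min_le_left _ _)
  · obtain ⟨j, hj⟩ := Nat.exists_eq_succ_of_ne_zero h0.ne'
    have hprev : 1 ≤ 4 * radius α β ρ (t * j) * (q : ℝ) ^ 2 :=
      not_lt.1 (Nat.find_min hex (by omega : j < k))
    have hre : r = radius α β ρ (t * j) * (α * β) ^ t := by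
      rw [hr, hj, radius, radius, Nat.mul_succ, pow_add]
      ring
    refine (div_le_div_of_nonneg_right (min_le_right _ _) (by positivity)).trans ?_
    rw [hre, div_le_iff₀ (by positivity)]
    nlinarith [mul_le_mul_of_nonneg_left hprev
      (by positivity : (0 : ℝ) ≤ γ * (α * β) ^ t / 8)]

end FA.SchmidtGames
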